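import Fermat.Agent.S56.P3.Glue

/-!
# S56 / P3, part B (arithmetic inputs), helper254

* `cycExpExists : CycExpExistsStatement` (CYCEXP)
* `cycloQuotient : CycloQuotientStatement` (CYC)
* `detOrder : DetOrderStatement` (DETORD)

Only Mathlib + the frozen P3 interface are used.
-/

set_option autoImplicit false

namespace Fermat.Agent.S56.P3.H254

local notation "Qb" => AlgebraicClosure ℚ

/-- `ℚ̄` contains a primitive `N`-th root of unity for every `N ≠ 0`. -/
theorem exists_primitiveRoot (N : ℕ) [NeZero N] : ∃ ζ : Qb, IsPrimitiveRoot ζ N :=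
  HasEnoughRootsOfUnity.exists_primitiveRoot Qb N

/-- An automorphism acts on all `N`-th roots of unity through the exponent it has on a primitive
one. -/
theorem apply_eq_pow_of_primitive {N : ℕ} [NeZero N] {ζ : Qb} (hζ : IsPrimitiveRoot ζ N)
    (σ : GQ) {a : ℕ} (ha : σ ζ = ζ ^ a) (μ : Qb) (hμ : μ ^ N = 1) : σ μ = μ ^ a := by
  obtain ⟨j, -, hj⟩ := hζ.eq_pow_of_pow_eq_one hμ
  rw [← hj, map_pow, ha, ← pow_mul, ← pow_mul, mul_comm]

/-- Every automorphism has an exponent on a primitive `N`-th root of unity. -/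
theorem exists_exponent {N : ℕ} [NeZero N] {ζ : Qb} (hζ : IsPrimitiveRoot ζ N) (σ : GQ) :
    ∃ a : ℕ, σ ζ = ζ ^ a := by
  have h1 : (σ ζ) ^ N = 1 := by rw [← map_pow, hζ.pow_eq_one, map_one]
  obtain ⟨a, -, ha⟩ := hζ.eq_pow_of_pow_eq_one h1
  exact ⟨a, ha.symm⟩

/-- **(CYCEXP)** every `σ ∈ G_ℚ` has a cyclotomic exponent on `μ_p`. -/
theorem cycExpExists : CycExpExistsStatement := by
  intro p _ σ
  have hp : p.Prime := Fact.out
  haveI : NeZero p := ⟨hp.ne_zero⟩
  obtain ⟨ζ, hζ⟩ := exists_primitiveRoot p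
  obtain ⟨a, ha⟩ := exists_exponent hζ σ
  exact ⟨a, fun μ hμ => apply_eq_pow_of_primitive hζ σ ha μ hμ⟩

/-- **(CYC)** `G_{ℚ(ζ_{p^(n+1)})}` is normal in `G_ℚ` with cyclic quotient (`p` odd). -/
theorem cycloQuotient : CycloQuotientStatement := by
  intro p _ hp2 n
  have hp : p.Prime := Fact.out
  haveI : NeZero (p ^ (n + 1)) := ⟨pow_ne_zero _ hp.ne_zero⟩
  obtain ⟨ζ, hζ⟩ := exists_primitiveRoot (p ^ (n + 1))
  let χ : GQ →* (ZMod (p ^ (n + 1)))ˣ := hζ.autToPow ℚ
  have hχ : ∀ σ : GQ, ζ ^ ((χ σ : (ZMod (p ^ (n + 1)))ˣ) : ZMod (p ^ (n + 1))).val = σ ζ :=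
    fun σ => hζ.autToPow_spec ℚ σ
  have hker : fixRootsSubgroup p n = χ.ker := by
    ext σ
    rw [mem_fixRootsSubgroup, MonoidHom.mem_ker]
    constructor
    · intro h
      have h1 : σ ζ = ζ := h ζ hζ.pow_eq_one
      have h2 := hχ σ
      rw [h1] at h2
      have h3 : ((χ σ : (ZMod (p ^ (n + 1)))ˣ) : ZMod (p ^ (n + 1))).val
          = (1 : ZMod (p ^ (n + 1))).val := by
        have hlt : 1 < p ^ (n + 1) := Nat.one_lt_pow (Nat.succ_ne_zero n) hp.one_lt
        haveI : Fact (1 < p ^ (n + 1)) := ⟨hlt⟩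
        rw [ZMod.val_one]
        refine hζ.pow_inj (ZMod.val_lt _) hlt ?_
        rw [h2, pow_one]
      exact Units.ext (ZMod.val_injective _ h3)
    · intro h μ hμ
      have h2 := hχ σ
      rw [h] at h2
      have hlt : 1 < p ^ (n + 1) := Nat.one_lt_pow (Nat.succ_ne_zero n) hp.one_lt
      haveI : Fact (1 < p ^ (n + 1)) := ⟨hlt⟩
      rw [Units.val_one, ZMod.val_one, pow_one] at h2
      have := apply_eq_pow_of_primitive hζ σ (a := 1) (by rw [pow_one]; exact h2.symm) μ hμ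
      rwa [pow_one] at this
  have hN : (fixRootsSubgroup p n).Normal := by
    rw [hker]
    exact MonoidHom.normal_ker χ
  refine ⟨hN, ?_⟩
  haveI : IsCyclic (ZMod (p ^ (n + 1)))ˣ := ZMod.isCyclic_units_of_prime_pow p hp hp2 (n + 1)
  let f : GQ ⧸ fixRootsSubgroup p n →* (ZMod (p ^ (n + 1)))ˣ :=
    QuotientGroup.lift (fixRootsSubgroup p n) χ (fun σ hσ => by
      rw [hker] at hσ
      exact hσ)
  have hf : Function.Injective f := by
    rw [injective_iff_map_eq_one]
    intro x hx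
    obtain ⟨σ, rfl⟩ := QuotientGroup.mk_surjective x
    have h1 : χ σ = 1 := hx
    rw [QuotientGroup.eq_one_iff, hker]
    exact h1
  exact isCyclic_of_injective f hf

/-- The mod `p` cyclotomic character is onto: every unit of `ZMod p` is the exponent of some
automorphism on a primitive `p`-th root of unity. -/
theorem exists_apply_eq_pow {p : ℕ} [Fact p.Prime] {ζ : Qb} (hζ : IsPrimitiveRoot ζ p)
    (a : (ZMod p)ˣ) : ∃ σ : GQ, σ ζ = ζ ^ (a : ZMod p).val := by
  have hp : p.Prime := Fact.out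
  haveI : NeZero p := ⟨hp.ne_zero⟩
  have hcop : (a : ZMod p).val.Coprime p := ZMod.val_coe_unit_coprime a
  have hζa : IsPrimitiveRoot (ζ ^ (a : ZMod p).val) p := hζ.pow_of_coprime _ hcop
  have hmin : minpoly ℚ (ζ ^ (a : ZMod p).val) = minpoly ℚ ζ := by
    rw [← Polynomial.cyclotomic_eq_minpoly_rat hζ hp.pos,
      ← Polynomial.cyclotomic_eq_minpoly_rat hζa hp.pos]
  haveI : Algebra.IsAlgebraic ℚ Qb := AlgebraicClosure.isAlgebraic ℚ
  haveI : IsAlgClosure ℚ Qb := ⟨inferInstance, inferInstance⟩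
  haveI : Normal ℚ Qb := IsAlgClosure.normal ℚ Qb
  have halg : IsAlgebraic ℚ (ζ ^ (a : ZMod p).val) :=
    (AlgebraicClosure.isAlgebraic ℚ).isAlgebraic _
  exact minpoly.exists_algEquiv_of_root (K := ℚ) (L := Qb) (x := ζ)
    (y := ζ ^ (a : ZMod p).val) halg (by rw [hmin]; exact minpoly.aeval ℚ ζ)

/-- **(DETORD)** if `det ρ̄` is the mod `p` cyclotomic character, it takes a value of exact
order `p - 1`. -/
theorem detOrder : DetOrderStatement := by
  intro k _ p _ ρbar hdet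
  have hp : p.Prime := Fact.out
  haveI : NeZero p := ⟨hp.ne_zero⟩
  haveI : IsCyclic (ZMod p)ˣ := ZMod.isCyclic_units_prime hp
  obtain ⟨g, hg⟩ := IsCyclic.exists_generator (α := (ZMod p)ˣ)
  have hord : orderOf g = p - 1 := by
    rw [orderOf_eq_card_of_forall_mem_zpowers hg, Nat.card_eq_fintype_card,
      ZMod.card_units_eq_totient, Nat.totient_prime hp]
  obtain ⟨ζ, hζ⟩ := exists_primitiveRoot p
  obtain ⟨γ, hγ⟩ := exists_apply_eq_pow hζ g
  have hexp : Fermat.Agent.S56.IsCycExp p γ (g : ZMod p).val :=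
    fun μ hμ => apply_eq_pow_of_primitive hζ γ hγ μ hμ
  have hdetγ := det_eq_of_isCycExp hdet hexp
  refine ⟨γ, ?_⟩
  rw [hdetγ]
  have hp0 : (p : k) = 0 := natCast_eq_zero_of_detIsCyclotomic hdet
  haveI : CharP k p := (CharP.charP_iff_prime_eq_zero hp).mpr hp0
  have h1 : (((g : ZMod p).val : ℕ) : k) = ZMod.castHom (dvd_refl p) k (g : ZMod p) := by
    rw [ZMod.castHom_apply, ZMod.natCast_val]
  rw [h1]
  have hinj : Function.Injective (ZMod.castHom (dvd_refl p) k) := RingHom.injective _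
  have h2 : orderOf ((ZMod.castHom (dvd_refl p) k) (g : ZMod p)) = orderOf (g : ZMod p) :=
    orderOf_injective ((ZMod.castHom (dvd_refl p) k : ZMod p →+* k) : ZMod p →* k) hinj _
  rw [h2, orderOf_units, hord]

end Fermat.Agent.S56.P3.H254
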